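import Fermat.Agent.H81.KLRed.Abstract
import Fermat.Agent.H91.KLNorm.Inst
import Fermat.Agent.H91.ES1KL.Interfaces1

/-!
# P-DS / ES1-KL-RED (row 811, helper81): with a good basis the special fibre `C / ϖ C` is
reduced

`reducedFibre : Fermat.Agent.H91.ES1KL.ReducedFibreStatement`.
-/

set_option autoImplicit false
set_option linter.style.haveILetI false

noncomputable section

open Polynomial

namespace Fermat.Agent.H81.KLRed

open Fermat.Agent.H22.KL Fermat.Agent.H91 Fermat.Agent.H91.KLNorm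

/-- **RED**: with a good basis the special fibre `C / ϖ C` is reduced. -/
theorem reducedFibre : Fermat.Agent.H91.ES1KL.ReducedFibreStatement := by
  intro A _ _ _ E _ _ _ hinj ϖ hϖ x hx hGB z hz m hzm
  letI := polyAlgE A E x
  letI := polyAlgK A E x
  haveI := polyAlg_isScalarTower A E x
  haveI hFR := polyAlg_isFractionRing A E hx
  haveI := finiteDimensional_of_goodBasis A E hGB
  have hp : Prime (C ϖ : A[X]) := prime_C_of_irreducible A hϖ
  have hgbp := hasGoodBasisAt_of_goodBasis A E hx hFR hGB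
  obtain ⟨H, hH, hint⟩ := (Fermat.Agent.H87.KL.mem_gaussClosure_iff hx ϖ z).1 hz
  obtain ⟨c, hc, hzc⟩ := hzm
  obtain ⟨H', hH', hint'⟩ := (Fermat.Agent.H87.KL.mem_gaussClosure_iff hx ϖ c).1 hc
  have h1 : IsIntegral A[X] (H • z) := by
    rw [Algebra.smul_def]
    exact hint
  have h2 : IsIntegral A[X] (H' • c) := by
    rw [Algebra.smul_def]
    exact hint'
  have h3 : z ^ m = (C ϖ : A[X]) • c := by
    rw [Algebra.smul_def, polyAlgE_algebraMap, aeval_C, hzc]
  obtain ⟨b'', hb'', hb⟩ := reduced_abstract (K := ↥(chartField A E x)) hp hgbp h1 h2 h3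
  have hHH : ¬ (C ϖ : A[X]) ∣ H * H' := fun h => (hp.dvd_or_dvd h).elim hH hH'
  have hHH0 : H * H' ≠ 0 := fun h0 => hHH (h0 ▸ dvd_zero _)
  have hev0 : aeval x (H * H') ≠ 0 := by
    intro h0
    apply hHH0
    have hinjx : Function.Injective (aeval x : A[X] →ₐ[A] E) :=
      transcendental_iff_injective.1 hx
    exact hinjx (by rw [h0, map_zero])
  have hb2 : aeval x (H * H') * z = algebraMap A E ϖ * b'' := by
    have := hb
    rw [Algebra.smul_def, Algebra.smul_def, polyAlgE_algebraMap, polyAlgE_algebraMap,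
      aeval_C] at this
    exact this
  refine ⟨b'' / aeval x (H * H'), ?_, ?_⟩
  · refine (Fermat.Agent.H87.KL.mem_gaussClosure_iff hx ϖ _).2 ⟨H * H', hHH, ?_⟩
    rw [mul_div_cancel₀ _ hev0]
    exact hb''
  · rw [← mul_div_assoc, ← hb2, mul_div_cancel_left₀ _ hev0]

end Fermat.Agent.H81.KLRed
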