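import Fermat.Agent.H91.PurityMain

/-!
# P-DS / ES1-KL-RED (row 811, helper81): reducedness of the special fibre, abstract core

`R` an integrally closed domain, `K = Frac R`, `E / K` finite, `p ∈ R` prime, and a good basis
of `E / K` at `p` (`Fermat.Agent.H91.HasGoodBasisAt R K E (span {p})`).

* `exists_trace_eq_of_pow` : if `w` is integral, `w ^ m = p • b'` with `b'` integral (`m ≥ 1`),
  then `Tr_{E/K}(w) ∈ p R`  (multiplication by `w` on the lattice of the good basis is nilpotent
  modulo `p`);
* `reduced_abstract` : if `s • z` is integral (`p ∤ s`) and `z ^ m = p • c` with `s' • c`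
  integral (`p ∤ s'`), then `(s * s') • z = p • b''` with `b''` integral.
-/

set_option autoImplicit false
set_option linter.unusedSectionVars false

noncomputable section

open Matrix

namespace Fermat.Agent.H81.KLRed

open Fermat.Agent.H91

section core

variable {R : Type*} [CommRing R] [IsDomain R] [IsIntegrallyClosed R]
variable {K : Type*} [Field K] [Algebra R K] [IsFractionRing R K]
variable {E : Type*} [Field E] [Algebra K E] [Algebra R E] [IsScalarTower R K E]
  [FiniteDimensional K E]

variable {n : ℕ} {b : Fin n → E}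
  {G : Matrix (Fin n) (Fin n) R}

/-- `N` is the matrix of `det G • (multiplication by x)` in the family `b`. -/
def IsMulMat (b : Fin n → E) (G : Matrix (Fin n) (Fin n) R) (N : Matrix (Fin n) (Fin n) R)
    (x : E) : Prop :=
  ∀ j, G.det • (x * b j) = ∑ i, N i j • b i

theorem exists_isMulMat (hint : ∀ i, IsIntegral R (b i)) (hn : Module.finrank K E = n)
    (hG : ∀ i j, algebraMap R K (G i j) = Algebra.trace K E (b i * b j)) (hd : G.det ≠ 0)
    {x : E} (hx : IsIntegral R x) : ∃ N, IsMulMat b G N x := by
  choose c hc using fun j => exists_det_smul_eq (K := K) hint hn hG hd (hx.mul (hint j))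
  exact ⟨Matrix.of fun i j => c j i, fun j => hc j⟩

/-- the matrix of `x` over `K` -/
theorem IsMulMat.map_eq (β : Module.Basis (Fin n) K E) (hβ : ⇑β = b)
    {N : Matrix (Fin n) (Fin n) R} {x : E} (hN : IsMulMat b G N x) :
    N.map (algebraMap R K) = algebraMap R K G.det • Algebra.leftMulMatrix β x := by
  ext i j
  rw [Matrix.map_apply, Matrix.smul_apply, Algebra.leftMulMatrix_eq_repr_mul, smul_eq_mul]
  have h1 : β.repr (G.det • (x * b j)) i = β.repr (∑ k, N k j • b k) i :=
    congrArg (fun y => β.repr y i) (hN j)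
  rw [hβ]
  have h2 : β.repr (G.det • (x * b j)) i = algebraMap R K G.det * β.repr (x * b j) i := by
    rw [← algebraMap_smul K G.det (x * b j), map_smul, Finsupp.smul_apply, smul_eq_mul]
  have h3 : β.repr (∑ k, N k j • b k) i = algebraMap R K (N i j) := by
    rw [map_sum, Finsupp.finsetSum_apply]
    rw [Finset.sum_eq_single i]
    · rw [← algebraMap_smul K (N i j) (b i), map_smul, Finsupp.smul_apply, smul_eq_mul, ← hβ,
        β.repr_self, Finsupp.single_eq_same, mul_one]
    · intro k _ hk
      rw [← algebraMap_smul K (N k j) (b k), map_smul, Finsupp.smul_apply, smul_eq_mul, ← hβ,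
        β.repr_self, Finsupp.single_eq_of_ne hk.symm, mul_zero]
    · intro h
      exact absurd (Finset.mem_univ i) h
  rw [← h2, h1, h3]

/-- the trace of `x` from the matrix `N` -/
theorem IsMulMat.trace_eq (β : Module.Basis (Fin n) K E) (hβ : ⇑β = b)
    {N : Matrix (Fin n) (Fin n) R} {x : E} (hN : IsMulMat b G N x) :
    algebraMap R K N.trace = algebraMap R K G.det * Algebra.trace K E x := by
  classical
  have h1 := congrArg Matrix.trace (hN.map_eq β hβ)
  rw [Matrix.trace_smul, smul_eq_mul, ← Algebra.trace_eq_matrix_trace β x] at h1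
  rw [← h1]
  simp only [Matrix.trace, Matrix.diag_apply, Matrix.map_apply, map_sum]

/-- powers -/
theorem IsMulMat.pow_eq (β : Module.Basis (Fin n) K E) (hβ : ⇑β = b)
    {N N' : Matrix (Fin n) (Fin n) R} {w b' : E} {p : R} {m : ℕ} (hm : 1 ≤ m)
    (hN : IsMulMat b G N w) (hN' : IsMulMat b G N' b') (hw : w ^ m = p • b') :
    N ^ m = (G.det ^ (m - 1) * p) • N' := by
  have hinj : Function.Injective (algebraMap R K) := IsFractionRing.injective R K
  apply Matrix.map_injective hinj
  change (N ^ m).map (algebraMap R K) = ((G.det ^ (m - 1) * p) • N').map (algebraMap R K)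
  have e1 : (N ^ m).map (algebraMap R K) = (N.map (algebraMap R K)) ^ m := by
    rw [← RingHom.mapMatrix_apply, map_pow, RingHom.mapMatrix_apply]
  have e2 : ((G.det ^ (m - 1) * p) • N').map (algebraMap R K)
      = algebraMap R K (G.det ^ (m - 1) * p) • N'.map (algebraMap R K) := by
    ext i j
    simp only [Matrix.map_apply, Matrix.smul_apply, smul_eq_mul, map_mul]
  rw [e1, e2, hN.map_eq β hβ, hN'.map_eq β hβ, smul_pow, ← map_pow (Algebra.leftMulMatrix β), hw,
    ← algebraMap_smul K p b', map_smul, smul_smul, smul_smul]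
  congr 1
  simp only [map_mul, map_pow]
  obtain ⟨k, rfl⟩ : ∃ k, m = k + 1 := ⟨m - 1, (Nat.sub_add_cancel hm).symm⟩
  rw [Nat.add_sub_cancel, pow_succ]
  ring

/-- **nilpotent modulo `p` ⟹ trace divisible by `p`.** -/
theorem exists_trace_eq_of_pow (hint : ∀ i, IsIntegral R (b i)) (hn : Module.finrank K E = n)
    (hG : ∀ i j, algebraMap R K (G i j) = Algebra.trace K E (b i * b j))
    {p : R} (hp : Prime p) (hd : ¬ p ∣ G.det) {w b' : E} (hw : IsIntegral R w)
    (hb' : IsIntegral R b') {m : ℕ} (hm : 1 ≤ m) (hwm : w ^ m = p • b') :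
    ∃ a : R, algebraMap R K (p * a) = Algebra.trace K E w := by
  classical
  have hd0 : G.det ≠ 0 := fun h0 => hd (h0 ▸ dvd_zero p)
  have hli := linearIndependent_of_det_ne_zero (K := K) hG hd0
  have : Nonempty (Fin n) := by
    have h0 : 0 < Module.finrank K E := Module.finrank_pos
    rw [hn] at h0
    exact ⟨⟨0, h0⟩⟩
  set β : Module.Basis (Fin n) K E :=
    basisOfLinearIndependentOfCardEqFinrank hli (by rw [hn, Fintype.card_fin]) with hβdef
  have hβ : ⇑β = b := coe_basisOfLinearIndependentOfCardEqFinrank hli _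
  obtain ⟨N, hN⟩ := exists_isMulMat (K := K) hint hn hG hd0 hw
  obtain ⟨N', hN'⟩ := exists_isMulMat (K := K) hint hn hG hd0 hb'
  have hpow := hN.pow_eq β hβ hm hN' hwm
  have : (Ideal.span {p}).IsPrime := (Ideal.span_singleton_prime hp.ne_zero).mpr hp
  have : IsDomain (R ⧸ Ideal.span {p}) := Ideal.Quotient.isDomain _
  set q := Ideal.Quotient.mk (Ideal.span {p}) with hq
  have hqp : q p = 0 := Ideal.Quotient.eq_zero_iff_mem.mpr (Ideal.mem_span_singleton_self p)
  have hnil : IsNilpotent (N.map q) := by
    refine ⟨m, ?_⟩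
    have e1 : (N.map q) ^ m = (N ^ m).map q := by
      rw [← RingHom.mapMatrix_apply, ← RingHom.mapMatrix_apply, map_pow]
    rw [e1, hpow]
    ext i j
    simp only [Matrix.map_apply, Matrix.smul_apply, smul_eq_mul, map_mul, hqp, mul_zero,
      zero_mul, Matrix.zero_apply]
  have htr : (N.map q).trace = 0 := (Matrix.isNilpotent_trace_of_isNilpotent hnil).eq_zero
  have htr' : q N.trace = 0 := by
    rw [← htr]
    simp only [Matrix.trace, Matrix.diag_apply, Matrix.map_apply, map_sum]
  have hdvd : p ∣ N.trace := Ideal.mem_span_singleton.mp (Ideal.Quotient.eq_zero_iff_mem.mp htr')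
  obtain ⟨t, ht⟩ := exists_trace_eq (R := R) (K := K) hw
  have h1 : algebraMap R K N.trace = algebraMap R K (G.det * t) := by
    rw [hN.trace_eq β hβ, map_mul, ht]
  have h2 : N.trace = G.det * t := IsFractionRing.injective R K h1
  rw [h2] at hdvd
  obtain ⟨a, ha⟩ := (hp.dvd_or_dvd hdvd).resolve_left hd
  exact ⟨a, by rw [← ha, ht]⟩

end core

section main

variable {R : Type*} [CommRing R] [IsDomain R] [IsIntegrallyClosed R]
variable {K : Type*} [Field K] [Algebra R K] [IsFractionRing R K]
variable {E : Type*} [Field E] [Algebra K E] [Algebra R E] [IsScalarTower R K E]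
  [FiniteDimensional K E]

/-- **Reducedness of the special fibre, abstract form.** -/
theorem reduced_abstract {p : R} (hp : Prime p)
    (hgb : HasGoodBasisAt R K E (Ideal.span {p})) {z c : E} {s s' : R}
    (hz : IsIntegral R (s • z)) (hc : IsIntegral R (s' • c)) {m : ℕ} (hzm : z ^ m = p • c) :
    ∃ b'' : E, IsIntegral R b'' ∧ (s * s') • z = p • b'' := by
  rcases Nat.eq_zero_or_pos m with rfl | hm
  · -- `1 = p c`
    rw [pow_zero] at hzm
    refine ⟨(s • z) * (s' • c), hz.mul hc, ?_⟩
    rw [smul_mul_smul_comm, smul_comm p, ← mul_smul_comm p z c, ← hzm, mul_one]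
  · have hnd := hgb.traceNondegAt_span hp
    obtain ⟨n, b, G, hn, hint, hG, hd⟩ := hgb
    have hd' : ¬ p ∣ G.det := fun h => hd (Ideal.mem_span_singleton.mpr h)
    set w : E := (s * s') • z with hw
    have hwint : IsIntegral R w := by
      rw [hw, mul_comm, mul_smul]
      exact hz.smul s'
    obtain ⟨k, rfl⟩ : ∃ k, m = k + 1 := ⟨m - 1, (Nat.sub_add_cancel hm).symm⟩
    set b' : E := (s ^ (k + 1) * s' ^ k) • (s' • c) with hb'
    have hb'int : IsIntegral R b' := hc.smul _
    have hwm : w ^ (k + 1) = p • b' := by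
      rw [hw, smul_pow, hzm, hb', smul_smul, smul_smul, smul_smul]
      congr 1
      ring
    have hmem : w ∈ (Ideal.span {p}) • (integralClosure R E).toSubmodule := by
      refine hnd w hwint fun y hy => ?_
      have hwy : (w * y) ^ (k + 1) = p • (b' * y ^ (k + 1)) := by
        rw [mul_pow, hwm, smul_mul_assoc]
      obtain ⟨a, ha⟩ := exists_trace_eq_of_pow (K := K) hint hn hG hp hd' (hwint.mul hy)
        (hb'int.mul (hy.pow _)) (Nat.succ_le_succ (Nat.zero_le k)) hwy
      exact ⟨p * a, Ideal.mul_mem_right a _ (Ideal.mem_span_singleton_self p), ha⟩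
    obtain ⟨z', hz', hwz'⟩ := mem_span_singleton_smul_iff.mp hmem
    exact ⟨z', hz', hwz'⟩

end main

end Fermat.Agent.H81.KLRed
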